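import Fermat.Agent.S14.Jac.Ideal
import Fermat.Agent.S14.Iface

/-!
# P-CFT / S14, module C: Stickelberger's relation for the Jacobi sum, interface form

`Fermat.Agent.S14.ifaceC : IfaceC`.
-/

set_option autoImplicit false

open NumberField IsCyclotomicExtension IsCyclotomicExtension.Rat Ideal IsDedekindDomain
open scoped Pointwise

namespace Fermat.Agent.S14

namespace Jac

variable (p : ℕ) [hp : Fact p.Prime] (K : Type*) [Field K] [NumberField K]
  [hK : IsCyclotomicExtension {p} ℚ K]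

theorem jacExp_injective : Function.Injective (jacExp p K) := by
  intro σ τ h
  unfold jacExp at h
  exact (galEquivZMod p K).injective (Units.ext (ZMod.val_injective p h))

theorem jacExp_eq_of_apply {ζ : K} (hζ : IsPrimitiveRoot ζ p) (σ : Gal(K/ℚ)) {c : ℕ} (hc : c < p)
    (h : σ ζ = ζ ^ c) : jacExp p K σ = c := by
  rw [jacExp_apply p K σ hζ.pow_eq_one] at h
  exact hζ.pow_inj (jacExp_lt p K σ) hc h

/-- Stickelberger's relation, indexed by exponents `c` in the upper half `(p / 2, p)`. -/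
theorem jac_isPrincipal_upperHalf (hp3 : 3 ≤ p) (ζ : K) (hζ : IsPrimitiveRoot ζ p)
    (σ : ℕ → Gal(K/ℚ)) (hσ : ∀ c ∈ upperHalf p, σ c ζ = ζ ^ c) (q : Ideal (𝓞 K)) [q.IsMaximal]
    (hℓ : (absNorm q).Prime) (hℓp : absNorm q ≠ p) :
    (∏ c ∈ upperHalf p, ((σ c)⁻¹ • q)).IsPrincipal := by
  classical
  obtain ⟨J, J', -, -, hJ'⟩ := jac_span_eq_prod p K hp3 q (absNorm q) hℓ hℓp rfl
  have hexp : ∀ c ∈ upperHalf p, jacExp p K (σ c) = c := fun c hc =>
    jacExp_eq_of_apply p K hζ (σ c) (Finset.mem_Ioo.mp hc).2 (hσ c hc)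
  have hprod : ∏ c ∈ upperHalf p, ((σ c)⁻¹ • q) =
      ∏ τ ∈ Finset.univ.filter (fun τ : Gal(K/ℚ) => ¬ 2 * jacExp p K τ < p), τ⁻¹ • q := by
    refine Finset.prod_bij (fun c _ => σ c) ?_ ?_ ?_ ?_
    · intro c hc
      rw [Finset.mem_filter]
      refine ⟨Finset.mem_univ _, ?_⟩
      rw [hexp c hc]
      have := (Finset.mem_Ioo.mp hc).1
      omega
    · intro c hc c' hc' h
      rw [← hexp c hc, ← hexp c' hc', h]
    · intro τ hτ
      have h1 := (Finset.mem_filter.mp hτ).2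
      have h2 := jacExp_lt p K τ
      have hodd : p % 2 = 1 := hp.out.eq_two_or_odd.resolve_left (by omega)
      have hmem : jacExp p K τ ∈ upperHalf p := by
        rw [upperHalf, Finset.mem_Ioo]
        constructor <;> omega
      refine ⟨jacExp p K τ, hmem, ?_⟩
      exact jacExp_injective p K (hexp _ hmem)
    · intro c hc
      rfl
  rw [hprod, ← hJ']
  exact ⟨⟨J', rfl⟩⟩

end Jac

/-- **Module C of P-CFT**: Stickelberger's relation for Jacobi sums at degree one primes. -/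
theorem ifaceC : IfaceC := by
  intro p hp hp3 K _ _ _ ζ hζ σ hσ 𝔮 hℓ hℓp
  have : Fact p.Prime := ⟨hp⟩
  have : 𝔮.asIdeal.IsMaximal := 𝔮.isMaximal
  exact Jac.jac_isPrincipal_upperHalf p K hp3 ζ hζ σ hσ 𝔮.asIdeal hℓ hℓp

end Fermat.Agent.S14
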