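import Mathlib

/-!
# P-CFT / S14, module C-JAC1: the Jacobi sum `J(χ, χ)` modulo a prime

Abstract setting: `R` is a domain with a primitive `p`-th root of unity `ζ`, `π : R →+* F` is a
ring homomorphism to a finite field with `π ζ ≠ 1`.  We construct the `p`-th power residue
character `χ : MulChar F R` (`π (χ x) = x ^ ((#F - 1) / p)`) and show that
`π (J(χ ^ a, χ ^ a)) = 0` whenever `0 < a` and `2 * a < p`.
-/

set_option autoImplicit false

open Finset

namespace Fermat.Agent.S14.Jac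

section FiniteFieldSum

variable {F : Type*} [Field F] [Fintype F]

/-- The power sum `∑ x, x ^ m * (1 - x) ^ n` over a finite field vanishes when
`m + n < #F - 1`. -/
theorem jac_sum_pow_mul_one_sub_pow (m n : ℕ) (h : m + n < Fintype.card F - 1) :
    ∑ x : F, x ^ m * (1 - x) ^ n = 0 := by
  have key : ∀ x : F, x ^ m * (1 - x) ^ n =
      ∑ j ∈ range (n + 1), ((-1 : F) ^ j * (n.choose j : F)) * x ^ (m + j) := by
    intro x
    have h1 : (1 - x) ^ n = (-x + 1) ^ n := by ring
    rw [h1, add_pow, Finset.mul_sum]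
    refine Finset.sum_congr rfl fun j _ => ?_
    rw [one_pow, neg_pow x j, pow_add]
    ring
  simp_rw [key]
  rw [Finset.sum_comm]
  refine Finset.sum_eq_zero fun j hj => ?_
  rw [← Finset.mul_sum]
  have hj' : j ≤ n := Nat.lt_succ_iff.mp (Finset.mem_range.mp hj)
  rw [FiniteField.sum_pow_lt_card_sub_one F (m + j) (by omega), mul_zero]

end FiniteFieldSum

section Character

variable {R : Type*} [CommRing R] {F : Type*} [Field F] [Fintype F]

/-- Existence of the `p`-th power residue character attached to `π : R →+* F`. -/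
theorem jac_exists_char (p : ℕ) (hp : p.Prime) (π : R →+* F) (ζ : R)
    (hζ : IsPrimitiveRoot ζ p) (hπ : π ζ ≠ 1) :
    ∃ (χ : MulChar F R) (k : ℕ), 0 < k ∧ k * p = Fintype.card F - 1 ∧ χ ^ p = 1 ∧
      (∀ x : F, π (χ x) = x ^ k) ∧ (∃ g : Fˣ, orderOf g = Fintype.card F - 1) := by
  classical
  have : Fact p.Prime := ⟨hp⟩
  have : NeZero p := ⟨hp.ne_zero⟩
  have h1 : (π ζ) ^ p = 1 := by rw [← map_pow, hζ.pow_eq_one, map_one]
  have hζF : IsPrimitiveRoot (π ζ) p := by
    have := IsPrimitiveRoot.orderOf (π ζ)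
    rwa [orderOf_eq_prime h1 hπ] at this
  have hπ0 : π ζ ≠ 0 := by
    intro h0
    rw [h0, zero_pow hp.ne_zero] at h1
    exact zero_ne_one h1
  have hdvd : p ∣ Fintype.card F - 1 :=
    hζF.dvd_of_pow_eq_one _ (FiniteField.pow_card_sub_one_eq_one (π ζ) hπ0)
  obtain ⟨k, hk⟩ := hdvd
  have hN : 0 < Fintype.card F - 1 := by
    have := Fintype.one_lt_card (α := F)
    omega
  have hk0 : 0 < k := by
    rcases Nat.eq_zero_or_pos k with h | h
    · rw [h, mul_zero] at hk; omega
    · exact h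
  obtain ⟨g, hg⟩ := IsCyclic.exists_generator (α := Fˣ)
  have hgord : orderOf g = Fintype.card F - 1 := by
    rw [orderOf_eq_card_of_forall_mem_zpowers hg, Nat.card_eq_fintype_card, Fintype.card_units]
  have hgk : ((g : F) ^ k) ^ p = 1 := by
    rw [← pow_mul, mul_comm, ← hk]
    exact FiniteField.pow_card_sub_one_eq_one (g : F) g.ne_zero
  obtain ⟨j, -, hj⟩ := hζF.eq_pow_of_pow_eq_one hgk
  let ζu : Rˣ := (hζ.isUnit hp.ne_zero).unit
  have hζu : (ζu : R) = ζ := IsUnit.unit_spec _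
  have hmem : ζu ^ j ∈ rootsOfUnity (Fintype.card Fˣ) R := by
    rw [mem_rootsOfUnity, Fintype.card_units, hk, ← pow_mul, mul_comm j, mul_assoc, pow_mul]
    ext
    rw [Units.val_pow_eq_pow_val, Units.val_pow_eq_pow_val, hζu, hζ.pow_eq_one, one_pow,
      Units.val_one]
  let χ : MulChar F R := MulChar.ofRootOfUnity hmem hg
  have hχg : χ g = ζ ^ j := by
    have := MulChar.ofRootOfUnity_spec hmem hg
    rw [this, Units.val_pow_eq_pow_val, hζu]
  refine ⟨χ, k, hk0, by rw [hk, mul_comm], ?_, ?_, ⟨g, hgord⟩⟩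
  · rw [MulChar.eq_iff hg, MulChar.pow_apply_coe, hχg, MulChar.one_apply_coe, ← pow_mul,
      mul_comm, pow_mul, hζ.pow_eq_one, one_pow]
  · intro x
    rcases eq_or_ne x 0 with rfl | hx
    · rw [MulChar.map_zero, map_zero, zero_pow hk0.ne']
    · obtain ⟨i, hi⟩ : ∃ i : ℕ, g ^ i = Units.mk0 x hx := by
        have := hg (Units.mk0 x hx)
        rwa [← mem_powers_iff_mem_zpowers, Submonoid.mem_powers_iff] at this
      have hx' : x = ((g ^ i : Fˣ) : F) := by rw [hi]; rfl
      rw [hx', Units.val_pow_eq_pow_val, map_pow, map_pow, hχg, map_pow, hj, ← pow_mul, ← pow_mul,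
        mul_comm]

/-- The power residue character is nontrivial. -/
theorem jac_char_ne_one {p k : ℕ} (hp : 2 ≤ p) (π : R →+* F) (χ : MulChar F R) (hk0 : 0 < k)
    (hk : k * p = Fintype.card F - 1) (hχ : ∀ x : F, π (χ x) = x ^ k)
    (hg : ∃ g : Fˣ, orderOf g = Fintype.card F - 1) : χ ≠ 1 := by
  obtain ⟨g, hg⟩ := hg
  intro h
  have h1 := hχ g
  rw [h, MulChar.one_apply_coe, map_one] at h1
  have h2 : g ^ k = 1 := by
    ext
    rw [Units.val_pow_eq_pow_val, ← h1, Units.val_one]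
  have h3 := orderOf_dvd_of_pow_eq_one h2
  rw [hg, ← hk] at h3
  have h4 := Nat.le_of_dvd hk0 h3
  nlinarith

/-- The square of the power residue character is nontrivial when `p ≥ 3`. -/
theorem jac_char_sq_ne_one {p k : ℕ} (hp : 3 ≤ p) (π : R →+* F) (χ : MulChar F R) (hk0 : 0 < k)
    (hk : k * p = Fintype.card F - 1) (hχ : ∀ x : F, π (χ x) = x ^ k)
    (hg : ∃ g : Fˣ, orderOf g = Fintype.card F - 1) : χ * χ ≠ 1 := by
  obtain ⟨g, hg⟩ := hg
  intro h
  have h1 := hχ g
  have h0 : (χ * χ) g = 1 := by rw [h, MulChar.one_apply_coe]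
  rw [MulChar.mul_apply] at h0
  have h2 : g ^ (2 * k) = 1 := by
    ext
    rw [Units.val_pow_eq_pow_val, Units.val_one, mul_comm, pow_mul, ← h1, pow_two, ← map_mul, h0,
      map_one]
  have h3 := orderOf_dvd_of_pow_eq_one h2
  rw [hg, ← hk] at h3
  have h4 := Nat.le_of_dvd (by omega) h3
  nlinarith

/-- The reduction of the Jacobi sum `J(χ ^ a, χ ^ a)`. -/
theorem jac_map_jacobiSum_pow {k : ℕ} (π : R →+* F) (χ : MulChar F R)
    (hχ : ∀ x : F, π (χ x) = x ^ k) {a : ℕ} (ha : 0 < a) :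
    π (jacobiSum (χ ^ a) (χ ^ a)) = ∑ x : F, x ^ (k * a) * (1 - x) ^ (k * a) := by
  rw [jacobiSum, map_sum]
  refine Finset.sum_congr rfl fun x _ => ?_
  rw [map_mul, MulChar.pow_apply' χ ha.ne', MulChar.pow_apply' χ ha.ne', map_pow, map_pow, hχ, hχ,
    ← pow_mul, ← pow_mul]

/-- **Key congruence**: the Jacobi sum `J(χ ^ a, χ ^ a)` of the `p`-th power residue character
reduces to `0` when `0 < a` and `2 * a < p`. -/
theorem jac_map_jacobiSum_pow_eq_zero {p k : ℕ} (π : R →+* F) (χ : MulChar F R)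
    (hk : k * p = Fintype.card F - 1) (hχ : ∀ x : F, π (χ x) = x ^ k) {a : ℕ} (ha : 0 < a)
    (hap : 2 * a < p) :
    π (jacobiSum (χ ^ a) (χ ^ a)) = 0 := by
  rw [jac_map_jacobiSum_pow π χ hχ ha]
  apply jac_sum_pow_mul_one_sub_pow
  rw [← hk]
  have hk0 : 0 < k := by
    rcases Nat.eq_zero_or_pos k with h | h
    · rw [h, zero_mul] at hk
      have := Fintype.one_lt_card (α := F)
      omega
    · exact h
  nlinarith

end Character

end Fermat.Agent.S14.Jac
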