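import Fermat.Agent.S14.Jac.Congr

/-!
# P-CFT / S14, module C-JAC2: ideal factorisation of the Jacobi sum (degree one primes)
-/

set_option autoImplicit false

open NumberField IsCyclotomicExtension IsCyclotomicExtension.Rat Ideal
open scoped Pointwise

namespace Fermat.Agent.S14.Jac

section NF

variable (p : ℕ) [hp : Fact p.Prime] (K : Type*) [Field K] [NumberField K]
  [hK : IsCyclotomicExtension {p} ℚ K]

/-- The exponent `c(σ) ∈ [1, p - 1]` with `σ ζ = ζ ^ c(σ)`. -/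
noncomputable def jacExp (σ : Gal(K/ℚ)) : ℕ :=
  ((galEquivZMod p K σ : (ZMod p)ˣ) : ZMod p).val

theorem jacExp_pos (σ : Gal(K/ℚ)) : 0 < jacExp p K σ := by
  unfold jacExp
  rw [ZMod.val_pos]
  exact Units.ne_zero _

theorem jacExp_lt (σ : Gal(K/ℚ)) : jacExp p K σ < p := by
  unfold jacExp
  exact ZMod.val_lt _

theorem jacExp_smul (σ : Gal(K/ℚ)) {x : 𝓞 K} (hx : x ^ p = 1) : σ • x = x ^ jacExp p K σ :=
  galEquivZMod_smul_of_pow_eq p K σ hx

theorem jacExp_apply (σ : Gal(K/ℚ)) {x : K} (hx : x ^ p = 1) : σ x = x ^ jacExp p K σ :=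
  galEquivZMod_apply_of_pow_eq p K σ hx

theorem jacExp_mul_symm_neg_one (σ : Gal(K/ℚ)) :
    jacExp p K (σ * (galEquivZMod p K).symm (-1)) = p - jacExp p K σ := by
  unfold jacExp
  rw [map_mul, MulEquiv.apply_symm_apply, mul_neg_one, Units.val_neg, ZMod.neg_val]
  rw [if_neg (Units.ne_zero _)]

theorem jacExp_symm_neg_one :
    jacExp p K ((galEquivZMod p K).symm (-1)) = p - 1 := by
  have := jacExp_mul_symm_neg_one p K 1
  rw [one_mul] at this
  rw [this]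
  unfold jacExp
  rw [map_one, Units.val_one]
  have : Fact (1 < p) := ⟨hp.out.one_lt⟩
  rw [ZMod.val_one]


attribute [local instance] Ideal.Quotient.field in
/-- **Jacobi sum generator.**  For a prime `q` of `ℚ(ζ_p)` of prime norm `ℓ ≠ p` there is an
element `J` (the Jacobi sum of the `p`-th power residue character) with `J * σ₋₁ J = ℓ` and
`σ J ∈ q` for all `σ` with `2 * c(σ) < p`. -/
theorem jac_exists_jacobi (hp3 : 3 ≤ p) (q : Ideal (𝓞 K)) [q.IsMaximal] (ℓ : ℕ) (hℓ : ℓ.Prime)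
    (hℓp : ℓ ≠ p) (hq : absNorm q = ℓ) :
    ∃ J : 𝓞 K, (∀ σ : Gal(K/ℚ), 2 * jacExp p K σ < p → σ • J ∈ q) ∧
      J * ((galEquivZMod p K).symm (-1) • J) = (ℓ : 𝓞 K) ∧ p ∣ ℓ - 1 := by
  classical
  have hq0 : q ≠ ⊥ := by
    rintro rfl
    rw [absNorm_bot] at hq
    exact hℓ.ne_zero hq.symm
  have hfin : Finite (𝓞 K ⧸ q) := Ideal.finiteQuotientOfFreeOfNeBot q hq0
  let _ : Fintype (𝓞 K ⧸ q) := Fintype.ofFinite _
  have hcard : Fintype.card (𝓞 K ⧸ q) = ℓ := by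
    rw [← hq, absNorm_apply, Submodule.cardQuot_apply, Nat.card_eq_fintype_card]
  have hζ := (zeta_spec p ℚ K).toInteger_isPrimitiveRoot
  set ζ : 𝓞 K := (zeta_spec p ℚ K).toInteger with hζdef
  have hπζ : IsPrimitiveRoot (Ideal.Quotient.mk q ζ) p := by
    refine hζ.idealQuotient_mk ?_ ?_
    · rw [hq]; exact hℓ.one_lt.ne'
    · rw [hq]; exact (Nat.coprime_primes hℓ hp.out).mpr hℓp
  have hπ1 : Ideal.Quotient.mk q ζ ≠ 1 := hπζ.ne_one hp.out.one_lt
  obtain ⟨χ, k, hk0, hk, hχp, hχ, hg⟩ := jac_exists_char p hp.out (Ideal.Quotient.mk q) ζ hζ hπ1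
  rw [hcard] at hk
  have hχ1 : χ ≠ 1 := jac_char_ne_one (by omega) (Ideal.Quotient.mk q) χ hk0 (hcard ▸ hk) hχ hg
  have hχ2 : χ * χ ≠ 1 :=
    jac_char_sq_ne_one hp3 (Ideal.Quotient.mk q) χ hk0 (hcard ▸ hk) hχ hg
  -- Galois action on the values of `χ`
  have hval : ∀ (σ : Gal(K/ℚ)) (y : 𝓞 K ⧸ q), σ • χ y = (χ ^ jacExp p K σ) y := by
    intro σ y
    rw [MulChar.pow_apply' χ (jacExp_pos p K σ).ne']
    rcases eq_or_ne y 0 with rfl | hy
    · rw [MulChar.map_zero, smul_zero, zero_pow (jacExp_pos p K σ).ne']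
    · refine jacExp_smul p K σ ?_
      rw [← MulChar.pow_apply' χ hp.out.ne_zero, hχp, MulChar.one_apply hy.isUnit]
  have hsmul : ∀ σ : Gal(K/ℚ), σ • jacobiSum χ χ =
      jacobiSum (χ ^ jacExp p K σ) (χ ^ jacExp p K σ) := by
    intro σ
    rw [jacobiSum, jacobiSum, Finset.smul_sum]
    refine Finset.sum_congr rfl fun x _ => ?_
    rw [smul_mul', hval, hval]
  refine ⟨jacobiSum χ χ, ?_, ?_, ⟨k, by rw [← hk, mul_comm]⟩⟩
  · intro σ hσ
    rw [← Ideal.Quotient.eq_zero_iff_mem, hsmul]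
    exact jac_map_jacobiSum_pow_eq_zero (Ideal.Quotient.mk q) χ (hcard ▸ hk) hχ
      (jacExp_pos p K σ) hσ
  · rw [hsmul, jacExp_symm_neg_one]
    have hinv : χ ^ (p - 1) = χ⁻¹ := by
      apply eq_inv_of_mul_eq_one_left
      rw [← pow_succ, Nat.sub_add_cancel hp.out.one_le, hχp]
    rw [hinv]
    apply FaithfulSMul.algebraMap_injective (𝓞 K) K
    rw [map_mul, ← jacobiSum_ringHomComp, ← jacobiSum_ringHomComp, ← MulChar.ringHomComp_inv,
      map_natCast, ← hcard]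
    have hinj : Function.Injective (algebraMap (𝓞 K) K) :=
      FaithfulSMul.algebraMap_injective (𝓞 K) K
    refine jacobiSum_mul_jacobiSum_inv ?_ ((MulChar.ringHomComp_ne_one_iff hinj).mpr hχ1)
      ((MulChar.ringHomComp_ne_one_iff hinj).mpr hχ1) ?_
    · rw [ringChar.eq_zero]
      exact (CharP.ringChar_ne_zero_of_finite (𝓞 K ⧸ q)).symm
    · rw [← MulChar.ringHomComp_mul]
      exact (MulChar.ringHomComp_ne_one_iff hinj).mpr hχ2

omit hp hK in
theorem jac_absNorm_smul (σ : Gal(K/ℚ)) (I : Ideal (𝓞 K)) : absNorm (σ • I) = absNorm I := by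
  rw [absNorm_apply, absNorm_apply, Submodule.cardQuot_apply, Submodule.cardQuot_apply]
  refine (Nat.card_congr (Ideal.quotientEquiv I (σ • I)
    (MulSemiringAction.toRingEquiv Gal(K/ℚ) (𝓞 K) σ) ?_).toEquiv).symm
  rw [Ideal.pointwise_smul_def]
  rfl

omit hp hK in
theorem jac_isMaximal_smul (σ : Gal(K/ℚ)) (I : Ideal (𝓞 K)) [hI : I.IsMaximal] :
    (σ • I).IsMaximal := by
  rw [Ideal.pointwise_smul_def]
  exact Ideal.map_isMaximal_of_equiv (MulSemiringAction.toRingEquiv Gal(K/ℚ) (𝓞 K) σ) (p := I)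

omit hp hK in
theorem jac_liesOver (q : Ideal (𝓞 K)) [q.IsMaximal] (ℓ : ℕ) (hℓ : ℓ.Prime)
    (hq : absNorm q = ℓ) : q.LiesOver (Ideal.span {(ℓ : ℤ)}) := by
  have : Fact ℓ.Prime := ⟨hℓ⟩
  have hmax : (Ideal.span {(ℓ : ℤ)}).IsMaximal := Int.ideal_span_isMaximal_of_prime ℓ
  refine ⟨hmax.eq_of_le ?_ ?_⟩
  · exact (Ideal.IsPrime.under ℤ q).ne_top
  · rw [Ideal.span_singleton_le_iff_mem, Ideal.under_def, Ideal.mem_comap]
    have := Ideal.absNorm_mem q
    rw [hq] at this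
    simpa using this

theorem jac_stabilizer_trivial (q : Ideal (𝓞 K)) [q.IsMaximal] (ℓ : ℕ) (hℓ : ℓ.Prime)
    (hℓp : ℓ ≠ p) (hq : absNorm q = ℓ) (hdvd : p ∣ ℓ - 1) (σ : Gal(K/ℚ)) (hσ : σ • q = q) :
    σ = 1 := by
  have : Fact ℓ.Prime := ⟨hℓ⟩
  have := jac_liesOver K q ℓ hℓ hq
  have hn : ℓ.Coprime p := (Nat.coprime_primes hℓ hp.out).mpr hℓp
  have hstab := galEquivZMod_stabilizer p K ℓ q hn
  have hone : ZMod.unitOfCoprime ℓ hn = 1 := by
    ext
    rw [ZMod.coe_unitOfCoprime, Units.val_one]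
    have h1 : ((ℓ - 1 : ℕ) : ZMod p) = 0 := (ZMod.natCast_eq_zero_iff _ _).mpr hdvd
    rw [Nat.cast_sub hℓ.one_le, Nat.cast_one, sub_eq_zero] at h1
    exact h1
  rw [hone, Subgroup.zpowers_one_eq_bot] at hstab
  have hmem : galEquivZMod p K σ ∈
      (galEquivZMod p K).mapSubgroup (MulAction.stabilizer Gal(K/ℚ) q) := by
    rw [MulEquiv.mapSubgroup_apply]
    exact Subgroup.mem_map_of_mem _ (MulAction.mem_stabilizer_iff.mpr hσ)
  rw [hstab, Subgroup.mem_bot] at hmem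
  exact (galEquivZMod p K).injective (hmem.trans (map_one _).symm)


/-- **Stickelberger's relation for the Jacobi sum** (degree one primes): the ideals
`∏_{2 c(σ) < p} σ⁻¹ q` and `∏_{p < 2 c(σ)} σ⁻¹ q` are principal. -/
theorem jac_span_eq_prod (hp3 : 3 ≤ p) (q : Ideal (𝓞 K)) [q.IsMaximal] (ℓ : ℕ) (hℓ : ℓ.Prime)
    (hℓp : ℓ ≠ p) (hq : absNorm q = ℓ) :
    ∃ J J' : 𝓞 K, J * J' = (ℓ : 𝓞 K) ∧
      Ideal.span {J} = ∏ σ ∈ Finset.univ.filter (fun σ : Gal(K/ℚ) => 2 * jacExp p K σ < p),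
        σ⁻¹ • q ∧
      Ideal.span {J'} = ∏ σ ∈ Finset.univ.filter (fun σ : Gal(K/ℚ) => ¬ 2 * jacExp p K σ < p),
        σ⁻¹ • q := by
  classical
  obtain ⟨J, hJ, hJJ, hdvd⟩ := jac_exists_jacobi p K hp3 q ℓ hℓ hℓp hq
  set τ : Gal(K/ℚ) := (galEquivZMod p K).symm (-1) with hτ
  set A := Finset.univ.filter (fun σ : Gal(K/ℚ) => 2 * jacExp p K σ < p) with hA
  set A' := Finset.univ.filter (fun σ : Gal(K/ℚ) => ¬ 2 * jacExp p K σ < p) with hA'
  have hgal : IsGalois ℚ K := IsCyclotomicExtension.isGalois {p} ℚ K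
  -- membership
  have ha : ∀ σ ∈ A, J ∈ σ⁻¹ • q := by
    intro σ hσ
    rw [Ideal.mem_inv_pointwise_smul_iff]
    exact hJ σ (Finset.mem_filter.mp hσ).2
  have hb : ∀ σ ∈ A', τ • J ∈ σ⁻¹ • q := by
    intro σ hσ
    rw [Ideal.mem_inv_pointwise_smul_iff, smul_smul]
    apply hJ
    rw [hτ, jacExp_mul_symm_neg_one]
    have h1 := (Finset.mem_filter.mp hσ).2
    have h2 := jacExp_lt p K σ
    have h3 : 2 * jacExp p K σ ≠ p := by
      intro h
      have hodd := hp.out.eq_one_or_self_of_dvd 2 ⟨jacExp p K σ, h.symm⟩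
      omega
    omega
  -- pairwise coprimality
  have hcop : ∀ s : Finset Gal(K/ℚ),
      (s : Set Gal(K/ℚ)).Pairwise (Function.onFun IsCoprime fun σ : Gal(K/ℚ) => σ⁻¹ • q) := by
    intro s σ _ σ' _ hne
    have h1 := jac_isMaximal_smul K σ⁻¹ q
    have h2 := jac_isMaximal_smul K σ'⁻¹ q
    refine Ideal.isCoprime_of_isMaximal fun h => hne ?_
    have h' : σ⁻¹ • q = σ'⁻¹ • q := h
    have h3 : (σ' * σ⁻¹) • q = q := by
      rw [mul_smul, h', smul_smul, mul_inv_cancel, one_smul]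
    have h4 := jac_stabilizer_trivial p K q ℓ hℓ hℓp hq hdvd _ h3
    exact (mul_inv_eq_one.mp h4).symm
  have hT : (∏ σ ∈ A, σ⁻¹ • q) ∣ Ideal.span {J} := by
    refine Finset.prod_dvd_of_coprime (hcop A) fun σ hσ => ?_
    rw [Ideal.dvd_iff_le, Ideal.span_singleton_le_iff_mem]
    exact ha σ hσ
  have hT' : (∏ σ ∈ A', σ⁻¹ • q) ∣ Ideal.span {τ • J} := by
    refine Finset.prod_dvd_of_coprime (hcop A') fun σ hσ => ?_
    rw [Ideal.dvd_iff_le, Ideal.span_singleton_le_iff_mem]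
    exact hb σ hσ
  obtain ⟨M, hM⟩ := hT
  obtain ⟨M', hM'⟩ := hT'
  -- norms
  have hnT : ∀ s : Finset Gal(K/ℚ), absNorm (∏ σ ∈ s, σ⁻¹ • q) = ℓ ^ s.card := by
    intro s
    rw [map_prod, Finset.prod_congr rfl fun σ _ => (jac_absNorm_smul K σ⁻¹ q).trans hq,
      Finset.prod_const]
  have hcardA : A.card + A'.card = Module.finrank ℚ K := by
    rw [hA, hA', Finset.card_filter_add_card_filter_not, Finset.card_univ,
      ← Nat.card_eq_fintype_card, IsGalois.card_aut_eq_finrank]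
  have hnorm : absNorm (Ideal.span {J}) * absNorm (Ideal.span {τ • J}) =
      ℓ ^ Module.finrank ℚ K := by
    rw [← map_mul, Ideal.span_singleton_mul_span_singleton, hJJ, absNorm_span_natCast,
      RingOfIntegers.rank]
  rw [hM, hM', map_mul, map_mul, hnT, hnT] at hnorm
  have hpos : 0 < ℓ ^ Module.finrank ℚ K := pow_pos hℓ.pos _
  have hMM : absNorm M * absNorm M' = 1 := by
    have h5 : ℓ ^ Module.finrank ℚ K * (absNorm M * absNorm M') = ℓ ^ Module.finrank ℚ K * 1 := by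
      rw [mul_one]
      nth_rewrite 2 [← hnorm]
      rw [← hcardA, pow_add]
      ring
    exact Nat.eq_of_mul_eq_mul_left hpos h5
  have hM1 : M = ⊤ := absNorm_eq_one_iff.mp (Nat.eq_one_of_mul_eq_one_right hMM)
  have hM'1 : M' = ⊤ := absNorm_eq_one_iff.mp (Nat.eq_one_of_mul_eq_one_left hMM)
  refine ⟨J, τ • J, hJJ, ?_, ?_⟩
  · rw [hM, hM1, Ideal.mul_top]
  · rw [hM', hM'1, Ideal.mul_top]

end NF

end Fermat.Agent.S14.Jac
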